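/-
Programme MAZ (S15), brick F-G0 (hedge of helper18, plan helper71 msg 12842), items (b)+(c) (helper52):
the LEVEL INCLUSION `N ∣ M` on both fibres, in the Prelude's `Along` vocabulary, as needed by
`HeckeRed71.CompatGen.exists_descent_along_gen`:

* characteristic `0`: `φ = LevelPullback12.levelIncl h : Fbar N → Fbar M`:
  `finrankAlong_levelIncl : ψ(N) * finrankAlong ℚ̄ φ = ψ(M)`, `finrankAlong_levelIncl_pos`;
* characteristic `ℓ ∤ M` (`κ` any field with `CharP κ ℓ`): `inclC κ h : FullC κ N → FullC κ M`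
  (`IntermediateField.inclusion (full_degeneracyC_le κ h)`), `coe_inclC`,
  `psi_mul_relfinrank_inclC`, `finrankAlong_inclC : ψ(N) * finrankAlong κ (inclC κ h) = ψ(M)`,
  `finiteAlong_inclC`, `isIntegral_inclC`, and for `κ` perfect `separableAlong_inclC`;
* `finrankAlong_eq : finrankAlong ℚ̄ (levelIncl h) = finrankAlong κ (inclC κ h)` and the packaged
  `exists_degree`.
-/
import Mathlib
import Fermat.Agent.T1B.Brandt27.DegreeC
import Fermat.Agent.ES.HECKE.LevelPullback12
import Fermat.Agent.RED.LVL.LevelDegree17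

set_option autoImplicit false
set_option linter.unusedSectionVars false
set_option linter.style.haveILetI false

noncomputable section

open HahnSeries ModularCurve IntermediateField AlgebraicCurve

namespace Fermat.Agent.MAZ.G0Incl52

open Fermat.Agent.IG Fermat.Agent.RED.PUR Fermat.Agent.ES.HECKE Fermat.Agent.T1B.Brandt27
open Fermat.Agent.ES.HECKE.LevelPullback12 Fermat.Agent.RED.LVL

local notation "Qb" => AlgebraicClosure ℚ

/-! ### characteristic zero -/

section CharZero

variable {N M : ℕ} [NeZero N] [NeZero M] (h : N ∣ M)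

/-- `finrankAlong` of the level inclusion is the relative degree `[Fbar M : Fbar N]`. -/
theorem finrankAlong_levelIncl_eq_relfinrank :
    finrankAlong Qb (levelIncl h) =
      relfinrank (modularFunctionFieldBar N) (modularFunctionFieldBar M) := by
  rw [AlongDegree25.finrankAlong_eq_relfinrank _ _ (levelIncl h)
    (AlgHom.id Qb (LaurentSeries Qb)) (fun a => by rw [coe_levelIncl]; rfl),
    IntermediateField.map_id]

/-- **`ψ(N) · [Fbar M : Fbar N] = ψ(M)`**, `Along` form. -/
theorem finrankAlong_levelIncl :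
    dedekindPsi N * finrankAlong Qb (levelIncl h) = dedekindPsi M := by
  rw [finrankAlong_levelIncl_eq_relfinrank]
  exact LevelDegree17.psi_mul_relfinrank h

theorem finrankAlong_levelIncl_pos : 0 < finrankAlong Qb (levelIncl h) := by
  rw [finrankAlong_levelIncl_eq_relfinrank]
  exact LevelDegree17.relfinrank_pos h

end CharZero

/-! ### characteristic `ℓ` -/

section Maps

variable (κ : Type) [Field κ] {N M : ℕ} [NeZero N] [NeZero M] (h : N ∣ M)

/-- the inclusion `k_N → k_M` for `N ∣ M`. -/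
def inclC : ↥(modularFunctionFieldFullC κ N) →ₐ[κ] ↥(modularFunctionFieldFullC κ M) :=
  IntermediateField.inclusion (full_degeneracyC_le κ h)

@[simp]
theorem coe_inclC (x : ↥(modularFunctionFieldFullC κ N)) :
    ((inclC κ h x : ↥(modularFunctionFieldFullC κ M)) : LaurentSeries κ) =
      (x : LaurentSeries κ) :=
  IntermediateField.coe_inclusion _ x

theorem inclC_injective : Function.Injective (inclC κ h) := (inclC κ h).toRingHom.injective

end Maps

section Degrees

variable (κ : Type) [Field κ] (ℓ : ℕ) [Fact ℓ.Prime] [CharP κ ℓ]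
  {N M : ℕ} [NeZero N] [NeZero M] (h : N ∣ M)

theorem not_dvd_of_dvd {ℓ' N' M' : ℕ} (h' : N' ∣ M') (hℓM : ¬ ℓ' ∣ M') : ¬ ℓ' ∣ N' :=
  fun hN => hℓM (dvd_trans hN h')

include h in
/-- **`ψ(N) · [k_M : k_N] = ψ(M)`** in characteristic `ℓ ∤ M`. -/
theorem psi_mul_relfinrank_inclC (hℓM : ¬ ℓ ∣ M) :
    dedekindPsi N *
      relfinrank (modularFunctionFieldFullC κ N) (modularFunctionFieldFullC κ M) =
        dedekindPsi M := by
  have h1 := DegBaseChange25.relfinrank_fullC_eq_psi_of_charP ℓ κ N (not_dvd_of_dvd h hℓM)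
  have h2 := DegBaseChange25.relfinrank_fullC_eq_psi_of_charP ℓ κ M hℓM
  have hmul := relfinrank_mul_relfinrank (simple_le_fullC' κ N) (full_degeneracyC_le κ h)
  rw [h1, h2] at hmul
  exact hmul

theorem finrankAlong_inclC_eq_relfinrank :
    finrankAlong κ (inclC κ h) =
      relfinrank (modularFunctionFieldFullC κ N) (modularFunctionFieldFullC κ M) := by
  rw [AlongDegree25.finrankAlong_eq_relfinrank _ _ (inclC κ h)
    (AlgHom.id κ (LaurentSeries κ)) (fun a => by rw [coe_inclC]; rfl),
    IntermediateField.map_id]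

/-- **`ψ(N) · [k_M : k_N] = ψ(M)`**, `Along` form. -/
theorem finrankAlong_inclC (hℓM : ¬ ℓ ∣ M) :
    dedekindPsi N * finrankAlong κ (inclC κ h) = dedekindPsi M := by
  rw [finrankAlong_inclC_eq_relfinrank]
  exact psi_mul_relfinrank_inclC κ ℓ h hℓM

/-- **the two degrees agree.** -/
theorem finrankAlong_eq (hℓM : ¬ ℓ ∣ M) :
    finrankAlong Qb (levelIncl h) = finrankAlong κ (inclC κ h) := by
  have h0 := finrankAlong_levelIncl h
  have h1 := finrankAlong_inclC κ ℓ h hℓM
  have hpos := Fermat.Agent.X0.GNPsi.gnp_dedekindPsi_pos (NeZero.ne N)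
  exact Nat.eq_of_mul_eq_mul_left hpos (h0.trans h1.symm)

theorem finrankAlong_inclC_pos (hℓM : ¬ ℓ ∣ M) : 0 < finrankAlong κ (inclC κ h) := by
  rw [← finrankAlong_eq κ ℓ h hℓM]
  exact finrankAlong_levelIncl_pos h

theorem finiteAlong_inclC (hℓM : ¬ ℓ ∣ M) : FiniteAlong κ (inclC κ h) :=
  AlongDegree25.finiteAlong_of_finrankAlong_pos _ (finrankAlong_inclC_pos κ ℓ h hℓM)

theorem isIntegral_inclC (hℓM : ¬ ℓ ∣ M) : (inclC κ h).toRingHom.IsIntegral :=
  AlongDegree25.isIntegral_of_finiteAlong _ (finiteAlong_inclC κ ℓ h hℓM)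

/-- the packaged statement for `exists_descent_along_gen`: a common degree `d > 0`. -/
theorem exists_degree (hℓM : ¬ ℓ ∣ M) :
    ∃ d : ℕ, 0 < d ∧ finrankAlong Qb (levelIncl h) = d ∧ finrankAlong κ (inclC κ h) = d :=
  ⟨finrankAlong Qb (levelIncl h), finrankAlong_levelIncl_pos h, rfl,
    (finrankAlong_eq κ ℓ h hℓM).symm⟩

end Degrees

/-! ### separability -/

section Separable

variable (κ : Type) [Field κ] (ℓ : ℕ) [Fact ℓ.Prime] [CharP κ ℓ] [PerfectField κ]
  {N M : ℕ} [NeZero N] [NeZero M] (h : N ∣ M)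

/-- **`k_M` is separable over `k_N` along the inclusion** (`κ` perfect, `ℓ ∤ M`). -/
theorem isSeparable_inclC (hℓM : ¬ ℓ ∣ M) :
    letI := algebraAlong (inclC κ h)
    Algebra.IsSeparable ↥(modularFunctionFieldFullC κ N) ↥(modularFunctionFieldFullC κ M) := by
  letI := algebraAlong (inclC κ h)
  refine ⟨fun y => ?_⟩
  exact isSeparable_along_of_factor κ _ _ (inclC κ h)
    (IntermediateField.inclusion (simple_le_fullC' κ N)).toRingHom
    (fun c => by
      rw [coe_inclC]
      exact IntermediateField.coe_inclusion (simple_le_fullC' κ N) c) y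
    (isSeparable_of_mem_fullC κ ℓ M hℓM y.2)

/-- the Prelude's `SeparableAlong` form. -/
theorem separableAlong_inclC (hℓM : ¬ ℓ ∣ M) : SeparableAlong κ (inclC κ h) :=
  isSeparable_inclC κ ℓ h hℓM

end Separable

end Fermat.Agent.MAZ.G0Incl52
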